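import Mathlib
import Fermat.Agent.S29.H642.HeckeTransfer

/-!
# S41 / block EIS (helper281): the Hecke transfer is Eisenstein on congruence characters

Let `l ∤ N` be a prime, `m ≥ 0` with `l ≡ 1 mod m`, and `φ : Γ₀(N) → A` an additive character which is
trivial on `Γ₀(N) ∩ Γ(m)`.  Then `T_l φ = (l + 1) φ`, where `T_l` is the Hecke transfer
`Fermat.Agent.S29.H642.heckeTransfer`.

Proof.  `α_x γ = γ_x α_{πx}` with `α_j = [[1, j],[0, l]]`, `α_∞ = [[l, 0],[0, 1]]`.  Modulo `m` we have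
`α_x ≡ δ_x` with `δ_j = [[1, j],[0, 1]]`, `δ_∞ = 1` in `Γ₀(N)`, hence `γ_x δ_{πx} ≡ δ_x γ mod m`, so
`φ(γ_x) = φ(γ) + φ(δ_x) − φ(δ_{πx})`; sum over `x` and use that `π` is a permutation.
-/

set_option autoImplicit false

namespace Fermat.Agent.S41.H281

open CongruenceSubgroup Matrix.SpecialLinearGroup
open P2MW.S_ModularForm_heckeT_slash_eq_self_of_mem_Gamma0.ModularForm.HeckeSlashInvariance
open Fermat.Agent.S29.H642
open scoped MatrixGroups

variable {p : ℕ} {N : ℕ}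

/-- The integral matrix of the Hecke representative `heckeRep p x`. -/
def repInt (p : ℕ) (x : OnePoint (ZMod p)) : Matrix (Fin 2) (Fin 2) ℤ :=
  x.elim !![(p : ℤ), 0; 0, 1] (fun j => !![1, (j.val : ℤ); 0, (p : ℤ)])

/-- The unipotent element of `SL(2, ℤ)` congruent to `heckeRep p x` modulo every `m ∣ p - 1`. -/
def repSL (p : ℕ) (x : OnePoint (ZMod p)) : SL(2, ℤ) :=
  x.elim 1 (fun j => ⟨!![1, (j.val : ℤ); 0, 1], by simp⟩)

@[simp] theorem repInt_infty : repInt p OnePoint.infty = !![(p : ℤ), 0; 0, 1] := rfl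

@[simp] theorem repInt_coe (j : ZMod p) :
    repInt p (j : OnePoint (ZMod p)) = !![1, (j.val : ℤ); 0, (p : ℤ)] := rfl

@[simp] theorem repSL_infty : repSL p OnePoint.infty = 1 := rfl

@[simp] theorem repSL_coe (j : ZMod p) :
    ((repSL p (j : OnePoint (ZMod p)) : SL(2, ℤ)) : Matrix (Fin 2) (Fin 2) ℤ) =
      !![1, (j.val : ℤ); 0, 1] := rfl

theorem repSL_mem_Gamma0 (p N : ℕ) (x : OnePoint (ZMod p)) : repSL p x ∈ Gamma0 N := by
  induction x using OnePoint.rec with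
  | infty => exact one_mem _
  | coe j => rw [Gamma0_mem, repSL_coe]; simp

theorem heckeRep_val_eq (hp : p ≠ 0) (x : OnePoint (ZMod p)) :
    ((heckeRep p x : GL (Fin 2) ℝ) : Matrix (Fin 2) (Fin 2) ℝ) =
      (repInt p x).map (Int.castRingHom ℝ) := by
  induction x using OnePoint.rec with
  | infty =>
    rw [heckeRep_infty, ModularForm.val_heckeDiagMatrix hp]
    ext i j
    fin_cases i <;> fin_cases j <;> simp
  | coe j =>
    rw [heckeRep_coe, ModularForm.val_heckeMatrix hp]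
    ext i j
    fin_cases i <;> fin_cases j <;> simp

theorem mapGL_val_eq (g : SL(2, ℤ)) :
    ((mapGL ℝ g : GL (Fin 2) ℝ) : Matrix (Fin 2) (Fin 2) ℝ) =
      (g : Matrix (Fin 2) (Fin 2) ℤ).map (Int.castRingHom ℝ) := by
  ext i j
  simp

/-- The defining relation of `hElt`, as an identity of integral matrices. -/
theorem hElt_spec_int [Fact p.Prime] (hpN : ¬ p ∣ N) (γ : Gamma0 N) (x : OnePoint (ZMod p)) :
    repInt p x * ((γ : SL(2, ℤ)) : Matrix (Fin 2) (Fin 2) ℤ) =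
      (((hElt hpN γ x : Gamma0 N) : SL(2, ℤ)) : Matrix (Fin 2) (Fin 2) ℤ) *
        repInt p (hPerm p (γ : SL(2, ℤ)) x) := by
  have hp : p ≠ 0 := (Fact.out : p.Prime).ne_zero
  have h := congrArg (fun M : GL (Fin 2) ℝ => (M : Matrix (Fin 2) (Fin 2) ℝ)) (hElt_spec hpN γ x)
  simp only [Matrix.GeneralLinearGroup.coe_mul, heckeRep_val_eq hp, mapGL_val_eq] at h
  have hinj : Function.Injective
      (fun M : Matrix (Fin 2) (Fin 2) ℤ => M.map (Int.castRingHom ℝ)) :=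
    Matrix.map_injective (Int.cast_injective (α := ℝ))
  apply hinj
  simp only [Matrix.map_mul]
  exact h

/-- Modulo `m` with `p ≡ 1 mod m`, the Hecke representative is congruent to the unipotent `repSL`. -/
theorem repInt_map_eq (m : ℕ) (hm : ((p : ℕ) : ZMod m) = 1) (x : OnePoint (ZMod p)) :
    (repInt p x).map (Int.castRingHom (ZMod m)) =
      ((repSL p x : SL(2, ℤ)) : Matrix (Fin 2) (Fin 2) ℤ).map (Int.castRingHom (ZMod m)) := by
  induction x using OnePoint.rec with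
  | infty =>
    ext i j
    fin_cases i <;> fin_cases j <;> simp [hm]
  | coe j =>
    rw [repSL_coe]
    ext i j
    fin_cases i <;> fin_cases j <;> simp [hm]

/-- The key congruence: `γ_x δ_{πx} ≡ δ_x γ mod m`. -/
theorem hElt_mul_repSL_inv_mem_Gamma [Fact p.Prime] (hpN : ¬ p ∣ N) (m : ℕ)
    (hm : ((p : ℕ) : ZMod m) = 1) (γ : Gamma0 N) (x : OnePoint (ZMod p)) :
    (repSL p x * (γ : SL(2, ℤ)))⁻¹ *
      (((hElt hpN γ x : Gamma0 N) : SL(2, ℤ)) * repSL p (hPerm p (γ : SL(2, ℤ)) x)) ∈ Gamma m := by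
  have h := congrArg (fun M : Matrix (Fin 2) (Fin 2) ℤ => M.map (Int.castRingHom (ZMod m)))
    (hElt_spec_int hpN γ x)
  simp only [Matrix.map_mul, repInt_map_eq m hm] at h
  have h2 : (Matrix.SpecialLinearGroup.map (Int.castRingHom (ZMod m)))
      (repSL p x * (γ : SL(2, ℤ))) =
      (Matrix.SpecialLinearGroup.map (Int.castRingHom (ZMod m)))
        (((hElt hpN γ x : Gamma0 N) : SL(2, ℤ)) * repSL p (hPerm p (γ : SL(2, ℤ)) x)) := by
    apply Subtype.ext
    simpa [Matrix.map_mul] using h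
  show _ ∈ (Matrix.SpecialLinearGroup.map (Int.castRingHom (ZMod m))).ker
  rw [MonoidHom.mem_ker, map_mul, map_inv, h2, inv_mul_cancel]

section Transfer

variable {A : Type*} [AddCommGroup A]

/-- **EIS**, pointwise form: for a character `φ` of `Γ₀(N)` trivial on `Γ₀(N) ∩ Γ(m)` and a prime
`p ∤ N`, `p ≡ 1 mod m`, we have `φ(γ_x) = φ(γ) + φ(δ_x) − φ(δ_{πx})`. -/
theorem apply_hElt_of_vanish [Fact p.Prime] (hpN : ¬ p ∣ N) (m : ℕ) (hm : ((p : ℕ) : ZMod m) = 1)
    (φ : Additive (Gamma0 N) →+ A)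
    (hφ : ∀ γ : Gamma0 N, (γ : SL(2, ℤ)) ∈ Gamma m → φ (Additive.ofMul γ) = 0)
    (γ : Gamma0 N) (x : OnePoint (ZMod p)) :
    φ (Additive.ofMul (hElt hpN γ x)) =
      φ (Additive.ofMul γ) + φ (Additive.ofMul (⟨repSL p x, repSL_mem_Gamma0 p N x⟩ : Gamma0 N)) -
        φ (Additive.ofMul (⟨repSL p (hPerm p (γ : SL(2, ℤ)) x),
          repSL_mem_Gamma0 p N _⟩ : Gamma0 N)) := by
  set d : Gamma0 N := ⟨repSL p x, repSL_mem_Gamma0 p N x⟩ with hd
  set d' : Gamma0 N := ⟨repSL p (hPerm p (γ : SL(2, ℤ)) x), repSL_mem_Gamma0 p N _⟩ with hd'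
  have hmem : (((d * γ)⁻¹ * (hElt hpN γ x * d') : Gamma0 N) : SL(2, ℤ)) ∈ Gamma m := by
    have := hElt_mul_repSL_inv_mem_Gamma hpN m hm γ x
    simpa [hd, hd'] using this
  have h0 := hφ _ hmem
  rw [ofMul_mul, ofMul_inv, ofMul_mul, ofMul_mul, map_add, map_neg, map_add, map_add] at h0
  have h1 : φ (Additive.ofMul (hElt hpN γ x)) + φ (Additive.ofMul d') =
      φ (Additive.ofMul d) + φ (Additive.ofMul γ) := by
    have := eq_of_sub_eq_zero (by rw [sub_eq_add_neg, add_comm]; exact h0 :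
      φ (Additive.ofMul (hElt hpN γ x)) + φ (Additive.ofMul d') -
        (φ (Additive.ofMul d) + φ (Additive.ofMul γ)) = 0)
    exact this
  rw [eq_sub_iff_add_eq, h1, add_comm]

/-- **Block EIS**: for a prime `p ∤ N` with `p ≡ 1 mod m`, the Hecke transfer `T_p` acts as `p + 1`
on every character of `Γ₀(N)` which is trivial on `Γ₀(N) ∩ Γ(m)`. -/
theorem heckeTransfer_eq_of_vanish [Fact p.Prime] (hpN : ¬ p ∣ N) (m : ℕ)
    (hm : ((p : ℕ) : ZMod m) = 1) (φ : Additive (Gamma0 N) →+ A)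
    (hφ : ∀ γ : Gamma0 N, (γ : SL(2, ℤ)) ∈ Gamma m → φ (Additive.ofMul γ) = 0) :
    heckeTransfer hpN φ = (p + 1) • φ := by
  refine AddMonoidHom.ext fun γ' => ?_
  obtain ⟨γ, rfl⟩ : ∃ γ : Gamma0 N, Additive.ofMul γ = γ' := ⟨Additive.toMul γ', rfl⟩
  rw [heckeTransfer_apply]
  simp only [apply_hElt_of_vanish hpN m hm φ hφ γ]
  rw [Finset.sum_sub_distrib, Finset.sum_add_distrib]
  have hperm : ∑ x : OnePoint (ZMod p),
      φ (Additive.ofMul (⟨repSL p (hPerm p (γ : SL(2, ℤ)) x),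
        repSL_mem_Gamma0 p N _⟩ : Gamma0 N)) =
      ∑ x : OnePoint (ZMod p),
        φ (Additive.ofMul (⟨repSL p x, repSL_mem_Gamma0 p N x⟩ : Gamma0 N)) :=
    Equiv.sum_comp (hPerm p (γ : SL(2, ℤ)))
      (fun y => φ (Additive.ofMul (⟨repSL p y, repSL_mem_Gamma0 p N y⟩ : Gamma0 N)))
  rw [hperm, add_sub_cancel_right, Finset.sum_const, Finset.card_univ]
  have hcard : Fintype.card (OnePoint (ZMod p)) = p + 1 := by
    rw [show Fintype.card (OnePoint (ZMod p)) = Fintype.card (Option (ZMod p)) from rfl,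
      Fintype.card_option, ZMod.card]
  rw [hcard, AddMonoidHom.smul_apply]

/-- Variant of `heckeTransfer_eq_of_vanish` with the congruence in `Nat.ModEq` form. -/
theorem heckeTransfer_eq_of_vanish_modEq [Fact p.Prime] (hpN : ¬ p ∣ N) (m : ℕ)
    (hm : p ≡ 1 [MOD m]) (φ : Additive (Gamma0 N) →+ A)
    (hφ : ∀ γ : Gamma0 N, (γ : SL(2, ℤ)) ∈ Gamma m → φ (Additive.ofMul γ) = 0) :
    heckeTransfer hpN φ = (p + 1) • φ :=
  heckeTransfer_eq_of_vanish hpN m
    (by have := (ZMod.natCast_eq_natCast_iff p 1 m).mpr hm; simpa using this) φ hφ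

end Transfer

end Fermat.Agent.S41.H281
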