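import Mathlib
import Fermat.Agent.S41.Spec.HK
import Fermat.Agent.S41.H281.Eis

/-!
# S41 / block HK, leaf HR (helper281): `T_l` commutes with the degeneracy maps `r₁`, `r₂`

* `repInt_eq_mul` : distinct Hecke representatives lie in distinct left `SL(2, ℤ)`-cosets
  (`α_y = ε α_z`, `ε ∈ SL(2, ℤ)` forces `y = z`, `ε = 1`);
* `hElt_unique_int` : strong uniqueness for the Hecke relation: `α_x γ = δ α_y` with `δ ∈ SL(2, ℤ)`
  forces `y = π_γ x` and `δ = γ_x`;
* `heckeRestrict : Spec.HeckeRestrictStatement`.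
-/

set_option autoImplicit false

namespace Fermat.Agent.S41.H281

open CongruenceSubgroup Matrix.SpecialLinearGroup
open P2MW.S_ModularForm_heckeT_slash_eq_self_of_mem_Gamma0.ModularForm.HeckeSlashInvariance
open Fermat.Agent.S29.H642 Fermat.Agent.S41.Spec
open scoped MatrixGroups

variable {p : ℕ} {N : ℕ}

theorem sl_ext_entries (ε ε' : SL(2, ℤ)) (h00 : ε 0 0 = ε' 0 0) (h01 : ε 0 1 = ε' 0 1)
    (h10 : ε 1 0 = ε' 1 0) (h11 : ε 1 1 = ε' 1 1) : ε = ε' := by
  ext i j
  fin_cases i <;> fin_cases j <;> assumption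

/-- Distinct Hecke representatives lie in distinct left `SL(2, ℤ)`-cosets. -/
theorem repInt_eq_mul [Fact p.Prime] (ε : SL(2, ℤ)) (y z : OnePoint (ZMod p))
    (h : repInt p y = (ε : Matrix (Fin 2) (Fin 2) ℤ) * repInt p z) : y = z ∧ ε = 1 := by
  have hp : p.Prime := Fact.out
  have hp0 : (p : ℤ) ≠ 0 := by exact_mod_cast hp.ne_zero
  have hp1 : ¬ (p : ℤ) ∣ 1 := by
    intro hd
    have := Int.natCast_dvd_natCast.mp (by simpa using hd : ((p : ℕ) : ℤ) ∣ ((1 : ℕ) : ℤ))
    exact hp.one_lt.ne' (Nat.dvd_one.mp this)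
  have h00 := congrFun (congrFun h 0) 0
  have h01 := congrFun (congrFun h 0) 1
  have h10 := congrFun (congrFun h 1) 0
  have h11 := congrFun (congrFun h 1) 1
  induction y using OnePoint.rec with
  | infty =>
    induction z using OnePoint.rec with
    | infty =>
      simp only [repInt_infty, Matrix.mul_apply, Fin.sum_univ_two, Matrix.of_apply,
        Matrix.cons_val', Matrix.cons_val_zero, Matrix.cons_val_one, Matrix.cons_val_fin_one,
        mul_zero, mul_one, add_zero, zero_add] at h00 h01 h10 h11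
      refine ⟨rfl, sl_ext_entries _ _ ?_ ?_ ?_ ?_⟩
      · have : (ε 0 0 - 1) * (p : ℤ) = 0 := by linear_combination -h00
        have := (mul_eq_zero.mp this).resolve_right hp0
        simp only [coe_one, Matrix.one_apply_eq]; linarith
      · simp only [coe_one]; rw [← h01]; simp
      · have : (ε 1 0) * (p : ℤ) = 0 := by linear_combination -h10
        have := (mul_eq_zero.mp this).resolve_right hp0
        simp only [coe_one]; rw [this]; simp
      · simp only [coe_one, Matrix.one_apply_eq]; rw [← h11]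
    | coe j =>
      exfalso
      simp only [repInt_infty, repInt_coe, Matrix.mul_apply, Fin.sum_univ_two, Matrix.of_apply,
        Matrix.cons_val', Matrix.cons_val_zero, Matrix.cons_val_one, Matrix.cons_val_fin_one,
        mul_zero, mul_one, add_zero] at h00 h01 h10 h11
      apply hp1
      refine ⟨ε 1 1, ?_⟩
      rw [← h10] at h11
      linear_combination h11
  | coe j =>
    induction z using OnePoint.rec with
    | infty =>
      exfalso
      simp only [repInt_infty, repInt_coe, Matrix.mul_apply, Fin.sum_univ_two, Matrix.of_apply,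
        Matrix.cons_val', Matrix.cons_val_zero, Matrix.cons_val_one, Matrix.cons_val_fin_one,
        mul_zero, mul_one, add_zero] at h00 h01 h10 h11
      apply hp1
      exact ⟨ε 0 0, by linear_combination h00⟩
    | coe j' =>
      simp only [repInt_coe, Matrix.mul_apply, Fin.sum_univ_two, Matrix.of_apply,
        Matrix.cons_val', Matrix.cons_val_zero, Matrix.cons_val_one, Matrix.cons_val_fin_one,
        mul_zero, mul_one, add_zero] at h00 h01 h10 h11
      have hjj : j = j' := by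
        have hc := congrArg (Int.cast : ℤ → ZMod p) h01
        push_cast at hc
        rw [ZMod.natCast_zmod_val, ZMod.natCast_zmod_val, ← h00] at hc
        simpa using hc
      subst hjj
      refine ⟨rfl, sl_ext_entries _ _ ?_ ?_ ?_ ?_⟩
      · simp only [coe_one, Matrix.one_apply_eq]; exact h00.symm
      · have : (ε 0 1) * (p : ℤ) = 0 := by rw [← h00] at h01; linear_combination -h01
        have := (mul_eq_zero.mp this).resolve_right hp0
        simp only [coe_one]; rw [this]; simp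
      · simp only [coe_one]; rw [← h10]; simp
      · have : (ε 1 1 - 1) * (p : ℤ) = 0 := by rw [← h10] at h11; linear_combination -h11
        have := (mul_eq_zero.mp this).resolve_right hp0
        simp only [coe_one, Matrix.one_apply_eq]; linarith

/-- Strong uniqueness in the Hecke relation: `α_x γ = δ α_y` with `δ ∈ SL(2, ℤ)` forces
`y = π_γ x` and `δ = γ_x`. -/
theorem hElt_unique_int [Fact p.Prime] (hpN : ¬ p ∣ N) (γ : Gamma0 N) (x y : OnePoint (ZMod p))
    (δ : SL(2, ℤ))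
    (h : repInt p x * ((γ : SL(2, ℤ)) : Matrix (Fin 2) (Fin 2) ℤ) =
      (δ : Matrix (Fin 2) (Fin 2) ℤ) * repInt p y) :
    y = hPerm p (γ : SL(2, ℤ)) x ∧ δ = ((hElt hpN γ x : Gamma0 N) : SL(2, ℤ)) := by
  have h1 := hElt_spec_int hpN γ x
  rw [h] at h1
  have h2 : repInt p y = ((δ⁻¹ * ((hElt hpN γ x : Gamma0 N) : SL(2, ℤ)) : SL(2, ℤ)) :
      Matrix (Fin 2) (Fin 2) ℤ) * repInt p (hPerm p (γ : SL(2, ℤ)) x) := by
    rw [coe_mul, Matrix.mul_assoc, ← h1, ← Matrix.mul_assoc, ← coe_mul, inv_mul_cancel, coe_one,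
      Matrix.one_mul]
  obtain ⟨hy, hε⟩ := repInt_eq_mul _ _ _ h2
  exact ⟨hy, (inv_mul_eq_one.mp hε)⟩


/-! ## `T_l` commutes with `r₁` -/

section R1

variable {l q : ℕ}

theorem hElt_incl [Fact l.Prime] (hl : ¬ l ∣ N) (hl' : ¬ l ∣ N * q) (γ : Gamma0 (N * q))
    (x : OnePoint (ZMod l)) :
    incl N q (hElt hl' γ x) = hElt hl (incl N q γ) x := by
  apply hElt_unique
  exact hElt_spec hl' γ x

end R1

/-! ## `T_l` commutes with `r₂` -/

section R2

variable {l q : ℕ}

/-- `δ = diag(q, 1)` as an integral matrix. -/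
def dMat (q : ℕ) : Matrix (Fin 2) (Fin 2) ℤ := !![(q : ℤ), 0; 0, 1]

theorem dMat_mul_coe (γ : SL(2, ℤ)) (h : (q : ℤ) ∣ γ 1 0) :
    dMat q * (γ : Matrix (Fin 2) (Fin 2) ℤ) = conjDeltaMatrix q γ * dMat q := by
  obtain ⟨k, hk⟩ := h
  rcases eq_or_ne q 0 with rfl | hq
  · simp only [Nat.cast_zero, zero_mul] at hk
    ext i j
    fin_cases i <;> fin_cases j <;>
      simp [dMat, conjDeltaMatrix, Matrix.mul_apply, Fin.sum_univ_two, hk]
  · have hq' : (q : ℤ) ≠ 0 := by exact_mod_cast hq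
    ext i j
    fin_cases i <;> fin_cases j <;>
      simp [dMat, conjDeltaMatrix, Matrix.mul_apply, Fin.sum_univ_two, hk,
        Int.mul_ediv_cancel_left _ hq'] <;> ring

theorem mul_dMat_cancel (hq : q ≠ 0) (M M' : Matrix (Fin 2) (Fin 2) ℤ)
    (h : M * dMat q = M' * dMat q) : M = M' := by
  have hq' : (q : ℤ) ≠ 0 := by exact_mod_cast hq
  have h0 : ∀ i, M i 0 = M' i 0 := by
    intro i
    have := congrFun (congrFun h i) 0
    simp only [dMat, Matrix.mul_apply, Fin.sum_univ_two, Matrix.of_apply, Matrix.cons_val',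
      Matrix.cons_val_zero, Matrix.cons_val_one, Matrix.cons_val_fin_one, mul_zero,
      add_zero] at this
    exact mul_right_cancel₀ hq' this
  have h1 : ∀ i, M i 1 = M' i 1 := by
    intro i
    have := congrFun (congrFun h i) 1
    simpa [dMat, Matrix.mul_apply, Fin.sum_univ_two] using this
  ext i j
  fin_cases j
  · exact h0 i
  · exact h1 i

/-- The permutation `x ↦ q x` of `ℙ¹(𝔽_l)` (as a map). -/
def sigmaPt (l q : ℕ) (x : OnePoint (ZMod l)) : OnePoint (ZMod l) :=
  x.elim OnePoint.infty (fun j => (((q : ZMod l) * j : ZMod l) : OnePoint (ZMod l)))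

@[simp] theorem sigmaPt_infty : sigmaPt l q OnePoint.infty = OnePoint.infty := rfl

@[simp] theorem sigmaPt_coe (j : ZMod l) :
    sigmaPt l q (j : OnePoint (ZMod l)) = (((q : ZMod l) * j : ZMod l) : OnePoint (ZMod l)) := rfl

theorem sigmaPt_injective [Fact l.Prime] (hlq : ¬ l ∣ q) : Function.Injective (sigmaPt l q) := by
  have hq : (q : ZMod l) ≠ 0 := by
    rw [Ne, ZMod.natCast_eq_zero_iff]
    exact hlq
  intro x y hxy
  induction x using OnePoint.rec with
  | infty =>
    induction y using OnePoint.rec with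
    | infty => rfl
    | coe j => simp at hxy
  | coe j =>
    induction y using OnePoint.rec with
    | infty => simp at hxy
    | coe j' =>
      simp only [sigmaPt_coe, OnePoint.coe_eq_coe] at hxy
      rw [mul_right_inj' hq] at hxy
      rw [hxy]

/-- The permutation `x ↦ q x` of `ℙ¹(𝔽_l)`. -/
noncomputable def sigmaEquiv (l q : ℕ) [Fact l.Prime] (hlq : ¬ l ∣ q) :
    OnePoint (ZMod l) ≃ OnePoint (ZMod l) :=
  Equiv.ofBijective (sigmaPt l q) (sigmaPt_injective hlq).bijective_of_finite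

@[simp] theorem sigmaEquiv_apply [Fact l.Prime] (hlq : ¬ l ∣ q) (x : OnePoint (ZMod l)) :
    sigmaEquiv l q hlq x = sigmaPt l q x := rfl

/-- The unipotent correction `u_x` with `δ α_x = u_x α_{q x} δ`. -/
def uSL (l q : ℕ) (x : OnePoint (ZMod l)) : SL(2, ℤ) :=
  x.elim 1 (fun j => ⟨!![1, ((q * j.val / l : ℕ) : ℤ); 0, 1], by simp⟩)

@[simp] theorem uSL_infty : uSL l q OnePoint.infty = 1 := rfl

@[simp] theorem uSL_coe (j : ZMod l) :
    ((uSL l q (j : OnePoint (ZMod l)) : SL(2, ℤ)) : Matrix (Fin 2) (Fin 2) ℤ) =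
      !![1, ((q * j.val / l : ℕ) : ℤ); 0, 1] := rfl

theorem uSL_mem_Gamma0 (l q N : ℕ) (x : OnePoint (ZMod l)) : uSL l q x ∈ Gamma0 N := by
  induction x using OnePoint.rec with
  | infty => exact one_mem _
  | coe j => rw [Gamma0_mem, uSL_coe]; simp

theorem val_natCast_mul [NeZero l] (j : ZMod l) :
    (((q : ZMod l) * j : ZMod l).val : ℤ) + ((q * j.val / l : ℕ) : ℤ) * l = q * j.val := by
  have h1 : ((q : ZMod l) * j : ZMod l) = ((q * j.val : ℕ) : ZMod l) := by
    push_cast
    rw [ZMod.natCast_zmod_val]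
  rw [h1, ZMod.val_natCast]
  have := Nat.mod_add_div (q * j.val) l
  have h2 : ((q * j.val % l : ℕ) : ℤ) + (l : ℤ) * ((q * j.val / l : ℕ) : ℤ) =
      ((q * j.val : ℕ) : ℤ) := by exact_mod_cast this
  push_cast at h2 ⊢
  linear_combination h2

theorem dMat_mul_repInt [NeZero l] (x : OnePoint (ZMod l)) :
    dMat q * repInt l x =
      (uSL l q x : Matrix (Fin 2) (Fin 2) ℤ) * repInt l (sigmaPt l q x) * dMat q := by
  induction x using OnePoint.rec with
  | infty =>
    ext i j
    fin_cases i <;> fin_cases j <;>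
      simp [dMat, Matrix.mul_apply, Fin.sum_univ_two, mul_comm]
  | coe j =>
    have hv := val_natCast_mul (q := q) j
    rw [sigmaPt_coe, repInt_coe, repInt_coe, uSL_coe]
    generalize ((((q : ZMod l) * j : ZMod l).val : ℕ) : ℤ) = a at hv ⊢
    generalize (((q * j.val / l : ℕ)) : ℤ) = b at hv ⊢
    generalize ((j.val : ℕ) : ℤ) = c at hv ⊢
    ext i k
    fin_cases i <;> fin_cases k <;>
      simp [dMat, Matrix.mul_apply, Fin.sum_univ_two]
    linear_combination -hv

/-- The Hecke relation at level `N`, conjugated by `δ`. -/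
theorem hElt_conjDelta [Fact l.Prime] (hl : ¬ l ∣ N) (hl' : ¬ l ∣ N * q) (γ : Gamma0 (N * q))
    (x : OnePoint (ZMod l)) :
    sigmaPt l q (hPerm l (γ : SL(2, ℤ)) x) =
        hPerm l ((conjDelta N q γ : Gamma0 N) : SL(2, ℤ)) (sigmaPt l q x) ∧
      (uSL l q x)⁻¹ * ((conjDelta N q (hElt hl' γ x) : Gamma0 N) : SL(2, ℤ)) *
          uSL l q (hPerm l (γ : SL(2, ℤ)) x) =
        ((hElt hl (conjDelta N q γ) (sigmaPt l q x) : Gamma0 N) : SL(2, ℤ)) := by
  have hq : q ≠ 0 := by
    rintro rfl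
    exact hl' (by simp)
  apply hElt_unique_int hl (conjDelta N q γ) (sigmaPt l q x)
  -- cancel `u_x` on the left and `δ` on the right
  have key : (uSL l q x : Matrix (Fin 2) (Fin 2) ℤ) *
      (repInt l (sigmaPt l q x) * (((conjDelta N q γ : Gamma0 N) : SL(2, ℤ)) :
        Matrix (Fin 2) (Fin 2) ℤ)) =
      (((conjDelta N q (hElt hl' γ x) : Gamma0 N) : SL(2, ℤ)) : Matrix (Fin 2) (Fin 2) ℤ) *
        ((uSL l q (hPerm l (γ : SL(2, ℤ)) x) : Matrix (Fin 2) (Fin 2) ℤ) *
          repInt l (sigmaPt l q (hPerm l (γ : SL(2, ℤ)) x))) := by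
    apply mul_dMat_cancel hq
    have e1 : (((conjDelta N q γ : Gamma0 N) : SL(2, ℤ)) : Matrix (Fin 2) (Fin 2) ℤ) =
        conjDeltaMatrix q (γ : SL(2, ℤ)) := rfl
    have e2 : (((conjDelta N q (hElt hl' γ x) : Gamma0 N) : SL(2, ℤ)) :
        Matrix (Fin 2) (Fin 2) ℤ) =
        conjDeltaMatrix q ((hElt hl' γ x : Gamma0 (N * q)) : SL(2, ℤ)) := rfl
    rw [e1, e2]
    calc (uSL l q x : Matrix (Fin 2) (Fin 2) ℤ) *
          (repInt l (sigmaPt l q x) * conjDeltaMatrix q (γ : SL(2, ℤ))) * dMat q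
        = ((uSL l q x : Matrix (Fin 2) (Fin 2) ℤ) * repInt l (sigmaPt l q x)) *
            (conjDeltaMatrix q (γ : SL(2, ℤ)) * dMat q) := by
          simp only [Matrix.mul_assoc]
      _ = ((uSL l q x : Matrix (Fin 2) (Fin 2) ℤ) * repInt l (sigmaPt l q x) * dMat q) *
            ((γ : SL(2, ℤ)) : Matrix (Fin 2) (Fin 2) ℤ) := by
          rw [← dMat_mul_coe _ (dvd_of_mem_gamma0_mul γ).1]
          simp only [Matrix.mul_assoc]
      _ = dMat q * (repInt l x * ((γ : SL(2, ℤ)) : Matrix (Fin 2) (Fin 2) ℤ)) := by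
          rw [← dMat_mul_repInt, Matrix.mul_assoc]
      _ = dMat q * ((((hElt hl' γ x : Gamma0 (N * q)) : SL(2, ℤ)) : Matrix (Fin 2) (Fin 2) ℤ) *
            repInt l (hPerm l (γ : SL(2, ℤ)) x)) := by
          rw [hElt_spec_int hl' γ x]
      _ = (conjDeltaMatrix q ((hElt hl' γ x : Gamma0 (N * q)) : SL(2, ℤ)) * dMat q) *
            repInt l (hPerm l (γ : SL(2, ℤ)) x) := by
          rw [← dMat_mul_coe _ (dvd_of_mem_gamma0_mul (hElt hl' γ x)).1]
          simp only [Matrix.mul_assoc]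
      _ = conjDeltaMatrix q ((hElt hl' γ x : Gamma0 (N * q)) : SL(2, ℤ)) *
            ((uSL l q (hPerm l (γ : SL(2, ℤ)) x) : Matrix (Fin 2) (Fin 2) ℤ) *
              repInt l (sigmaPt l q (hPerm l (γ : SL(2, ℤ)) x))) * dMat q := by
          rw [Matrix.mul_assoc, dMat_mul_repInt]
          simp only [Matrix.mul_assoc]
  rw [coe_mul, coe_mul, Matrix.mul_assoc, Matrix.mul_assoc, ← key, ← Matrix.mul_assoc,
    ← coe_mul, inv_mul_cancel, coe_one, Matrix.one_mul]

end R2

/-! ## The leaf -/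

section Leaf

universe u

theorem heckeTransfer_r₁ {N q l : ℕ} [Fact l.Prime] (hl : ¬ l ∣ N) (hl' : ¬ l ∣ N * q)
    {A : Type u} [AddCommGroup A] (φ : Additive (Gamma0 N) →+ A) :
    heckeTransfer hl' (r₁ N q φ) = r₁ N q (heckeTransfer hl φ) := by
  refine AddMonoidHom.ext fun γ' => ?_
  obtain ⟨γ, rfl⟩ : ∃ γ : Gamma0 (N * q), Additive.ofMul γ = γ' := ⟨Additive.toMul γ', rfl⟩
  rw [heckeTransfer_apply]
  show _ = heckeTransfer hl φ (Additive.ofMul (incl N q γ))
  rw [heckeTransfer_apply]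
  refine Finset.sum_congr rfl fun x _ => ?_
  show φ (Additive.ofMul (incl N q (hElt hl' γ x))) = _
  rw [hElt_incl hl hl']

theorem heckeTransfer_r₂ {N q l : ℕ} [Fact l.Prime] (hl : ¬ l ∣ N) (hl' : ¬ l ∣ N * q)
    {A : Type u} [AddCommGroup A] (φ : Additive (Gamma0 N) →+ A) :
    heckeTransfer hl' (r₂ N q φ) = r₂ N q (heckeTransfer hl φ) := by
  have hlq : ¬ l ∣ q := fun h => hl' (h.mul_left N)
  refine AddMonoidHom.ext fun γ' => ?_
  obtain ⟨γ, rfl⟩ : ∃ γ : Gamma0 (N * q), Additive.ofMul γ = γ' := ⟨Additive.toMul γ', rfl⟩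
  rw [heckeTransfer_apply]
  show _ = heckeTransfer hl φ (Additive.ofMul (conjDelta N q γ))
  rw [heckeTransfer_apply]
  rw [← Equiv.sum_comp (sigmaEquiv l q hlq)
    (fun y => φ (Additive.ofMul (hElt hl (conjDelta N q γ) y)))]
  simp only [sigmaEquiv_apply]
  -- the unipotent corrections as elements of `Γ₀(N)`
  set u : OnePoint (ZMod l) → Gamma0 N := fun x => ⟨uSL l q x, uSL_mem_Gamma0 l q N x⟩ with hu
  have hx : ∀ x : OnePoint (ZMod l),
      φ (Additive.ofMul (hElt hl (conjDelta N q γ) (sigmaPt l q x))) =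
        (r₂ N q φ) (Additive.ofMul (hElt hl' γ x)) +
          φ (Additive.ofMul (u (hPerm l (γ : SL(2, ℤ)) x))) - φ (Additive.ofMul (u x)) := by
    intro x
    have h := (hElt_conjDelta hl hl' γ x).2
    have h' : hElt hl (conjDelta N q γ) (sigmaPt l q x) =
        (u x)⁻¹ * conjDelta N q (hElt hl' γ x) * u (hPerm l (γ : SL(2, ℤ)) x) := by
      apply Subtype.ext
      rw [← h]
      rfl
    rw [h', ofMul_mul, ofMul_mul, ofMul_inv, map_add, map_add, map_neg]
    show _ = φ (Additive.ofMul (conjDelta N q (hElt hl' γ x))) + _ - _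
    abel
  simp only [hx]
  rw [Finset.sum_sub_distrib, Finset.sum_add_distrib]
  have hperm : ∑ x : OnePoint (ZMod l), φ (Additive.ofMul (u (hPerm l (γ : SL(2, ℤ)) x))) =
      ∑ x : OnePoint (ZMod l), φ (Additive.ofMul (u x)) :=
    Equiv.sum_comp (hPerm l (γ : SL(2, ℤ))) (fun y => φ (Additive.ofMul (u y)))
  rw [hperm, add_sub_cancel_right]

/-- **Leaf HR** of block HK: `T_l` commutes with the degeneracy maps `r₁`, `r₂`. -/
theorem heckeRestrict : HeckeRestrictStatement.{u} := by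
  intro N q l _ hl hl' A _ φ
  exact ⟨heckeTransfer_r₁ hl hl' φ, heckeTransfer_r₂ hl hl' φ⟩

end Leaf

end Fermat.Agent.S41.H281
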