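import Mathlib
import Fermat.Agent.S41.Spec.HK
import Fermat.Agent.S41.H761.TRH
import Fermat.Agent.S41.H281.HeckeRestrict

/-!
# S41 / block HK, leaf COMM (helper281): the Hecke transfers commute — reduction to HT

`T_l T_l' = t₁ r₂ T_l'` (TRH at `(N, l)`) `= t₁ T_l' r₂` (HR at `(N, q := l)`, `l' ∤ N l`)
`= T_l' t₁ r₂` (HT at `(N, q := l)`) `= T_l' T_l` (TRH).  For `l = l'` there is nothing to prove.

* `heckeComm_of_HT : Spec.HeckeTransferStatement → Spec.HeckeCommStatement`.
-/

set_option autoImplicit false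

namespace Fermat.Agent.S41.H281

open CongruenceSubgroup Matrix.SpecialLinearGroup
open Fermat.Agent.S29.H642 Fermat.Agent.S41.Spec
open scoped MatrixGroups

universe u

/-- **Leaf COMM** of block HK, modulo leaf HT: the Hecke transfers `T_l`, `T_l'` commute. -/
theorem heckeComm_of_HT (hHT : HeckeTransferStatement.{u}) : HeckeCommStatement.{u} := by
  intro N l l' _ _ hl hl' A _ φ
  by_cases hll : l = l'
  · subst hll
    rfl
  · have hN : N ≠ 0 := by
      rintro rfl
      exact hl (dvd_zero _)
    have hlp : l.Prime := Fact.out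
    have hlp' : l'.Prime := Fact.out
    have hl'' : ¬ l' ∣ N * l := by
      intro h
      rcases (Nat.Prime.dvd_mul hlp').mp h with h1 | h1
      · exact hl' h1
      · exact hll ((Nat.prime_dvd_prime_iff_eq hlp' hlp).mp h1).symm
    have hNl : N * l ≠ 0 := Nat.mul_ne_zero hN hlp.ne_zero
    have hTRH := H761.transferRestrictHecke.{u} N l hl hN A
    calc heckeTransfer hl (heckeTransfer hl' φ)
        = t₁ N l (r₂ N l (heckeTransfer hl' φ)) := ((hTRH (heckeTransfer hl' φ)).1).symm
      _ = t₁ N l (heckeTransfer hl'' (r₂ N l φ)) := by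
          rw [(heckeRestrict.{u} N l l' hl' hl'' A φ).2]
      _ = heckeTransfer hl' (t₁ N l (r₂ N l φ)) := ((hHT N l l' hl' hl'' hNl A (r₂ N l φ)).1).symm
      _ = heckeTransfer hl' (heckeTransfer hl φ) := by rw [(hTRH φ).1]

end Fermat.Agent.S41.H281
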