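import Mathlib
import Fermat.Agent.S41.Spec.HK
import Fermat.Agent.S41.H581.Fun
import Fermat.Agent.S41.H761.TRH
import Fermat.Agent.S41.H761.HT
import Fermat.Agent.S41.H281.HeckeComm

/-!
# S41 / block HK closed (helper281): leaf COMM and the bundled `Spec.HKStatement`

* `heckeComm : Spec.HeckeCommStatement` (leaf COMM) `= heckeComm_of_HT H761.heckeTransferComm`;
* `hkStatement : Spec.HKStatement` : all nine Props of block HK, from the landed leaves
  FUN, RC, TC (helper581), HC, HT, TRH (helper761), HR (helper281), TR (helper105), COMM.
-/

set_option autoImplicit false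

namespace Fermat.Agent.S41.H281

open Fermat.Agent.S41.Spec

universe u

/-- **Leaf COMM** of block HK: the Hecke transfers `T_l`, `T_l'` commute. -/
theorem heckeComm : HeckeCommStatement.{u} :=
  heckeComm_of_HT H761.heckeTransferComm.{u}

/-- **Block HK**: all nine Betti relations. -/
theorem hkStatement : HKStatement.{u} :=
  ⟨H581.functoriality, H581.restrictCusp, H581.transferCusp, H761.heckeCusp, heckeRestrict,
    H761.heckeTransferComm, H105.transferRestrict, H761.transferRestrictHecke, heckeComm⟩

end Fermat.Agent.S41.H281
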