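import Mathlib
import Fermat.Agent.S41.Spec.PD

/-!
# S41 / block PD, leaves LA-1, LA-2, LA-3 (helper281): linear algebra of the Manin model

* `maninSkew : Spec.ManinSkewStatement` (LA-2): skew-symmetry of the Manin form on parabolic data.
  With `b = m - e ∘ σ` the summand of `⟨m', e - e∘σ⟩ + ⟨m, e' - e'∘σ⟩` is
  `-[(b b')∘υ - b b'] - [(e e')∘σ - e e']`.
* `maninParDataOf : Spec.ManinParDataOfStatement` (LA-3): `e := a`, `m := b + a ∘ σ`.
* `maninPerp : Spec.ManinPerpStatement` (LA-1): `((σ-1)M ∩ (υ-1)M)^⊥ ⊆ M^σ + M^υ` for the dot product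
  (`(M^π)^⊥ = (π-1)M` by dimension count, `(U₁ ⊔ U₂)^⊥ = U₁^⊥ ⊓ U₂^⊥`, `W^⊥⊥ = W`).
* `parDataLift : Spec.ParDataLiftStatement` (LA-4): lifting parabolic data from `ℤ/p` to `ℤ`.
  `D(m, e) := (m|ST - m) - (e|T - e)` maps `M_ℤ × M_ℤ` onto `M₀ = {f | ∑ f = 0}`: its image contains
  `f|g - f` for `g = ST, T`, hence for all `g ∈ ⟨ST, T⟩ = SL(2, ℤ)`, hence `δ_y - δ_x` for all `x, y`
  (the action on `X = SL(2, ℤ) ⧸ Γ` is transitive).  Lift `(m̄, ē)` arbitrarily to `(m₁, e₁)`; then
  `D(m₁, e₁) = p f` with `∑ f = 0`, so `f = D(m₂, e₂)`, and `(m₁ - p m₂, e₁ - p e₂)` is parabolic data.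
-/

set_option autoImplicit false

namespace Fermat.Agent.S41.H281

open Fermat.Agent.S41.Spec ModularGroup Matrix.SpecialLinearGroup
open scoped MatrixGroups

universe u

/-! ## LA-2 -/

/-- (LA-2) skew-symmetry of the Manin form on parabolic data. -/
theorem maninSkew : ManinSkewStatement.{u} := by
  intro X _ σ υ τ hσ hτ R _ m e m' e' h h'
  have hστ : ∀ x, σ (υ x) = τ x := fun x => by rw [← hτ x, hσ]
  have key : ∀ x, m' x * (e x - e (σ x)) + m x * (e' x - e' (σ x)) =
      -((m (υ x) - e (σ (υ x))) * (m' (υ x) - e' (σ (υ x))) - (m x - e (σ x)) * (m' x - e' (σ x)))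
        - (e (σ x) * e' (σ x) - e x * e' x) := by
    intro x
    rw [hστ x]
    linear_combination -(m' (υ x) - e' (τ x)) * h x - (m x - e x) * h' x
  rw [eq_neg_iff_add_eq_zero, ← Finset.sum_add_distrib]
  simp only [key]
  rw [Finset.sum_sub_distrib, Finset.sum_neg_distrib, Finset.sum_sub_distrib,
    Finset.sum_sub_distrib,
    Equiv.sum_comp υ (fun x => (m x - e (σ x)) * (m' x - e' (σ x))),
    Equiv.sum_comp σ (fun x => e x * e' x)]
  simp

/-! ## LA-3 -/

/-- (LA-3) every `s ∈ (σ-1)M ∩ (υ-1)M` comes from parabolic data. -/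
theorem maninParDataOf : ManinParDataOfStatement.{u} := by
  intro X σ υ τ hσ hτ A _ s a b hsa hsb
  have hστ : ∀ x, σ (υ x) = τ x := fun x => by rw [← hτ x, hσ]
  refine ⟨fun x => b x + a (σ x), a, fun x => ?_, fun x => (hsa x).symm⟩
  simp only
  rw [hστ x]
  have h1 := hsa x
  have h2 := hsb x
  have h3 : b (υ x) - b x = a (σ x) - a x := by rw [← h1, h2]
  have h4 : b (υ x) = a (σ x) - a x + b x := by rw [← h3]; abel
  rw [h4]
  abel


/-! ## LA-1 -/

section Perp

variable {X : Type} [Fintype X] {F : Type u} [Field F]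

/-- The dot product on `X → F` as a bilinear form. -/
noncomputable def dotForm (X : Type) [Fintype X] (F : Type u) [Field F] :
    LinearMap.BilinForm F (X → F) :=
  LinearMap.mk₂ F (fun f g => ∑ x, f x * g x)
    (fun f f' g => by simp only [Pi.add_apply, add_mul, Finset.sum_add_distrib])
    (fun c f g => by simp only [Pi.smul_apply, smul_eq_mul, Finset.mul_sum, mul_assoc])
    (fun f g g' => by simp only [Pi.add_apply, mul_add, Finset.sum_add_distrib])
    (fun c f g => by
      simp only [Pi.smul_apply, smul_eq_mul, Finset.mul_sum]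
      exact Finset.sum_congr rfl fun x _ => by ring)

theorem dotForm_apply (f g : X → F) : dotForm X F f g = ∑ x, f x * g x := rfl

theorem dotForm_isSymm : (dotForm X F).IsSymm := by
  refine ⟨fun f g => ?_⟩
  simp only [dotForm_apply]
  exact Finset.sum_congr rfl fun x _ => mul_comm _ _

theorem dotForm_nondegenerate : (dotForm X F).Nondegenerate := by
  classical
  have hleft : ∀ f : X → F, (∀ g, dotForm X F f g = 0) → f = 0 := by
    intro f hf
    funext x
    have := hf (Pi.single x 1)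
    rw [dotForm_apply] at this
    simpa [Pi.single_apply] using this
  refine ⟨hleft, fun g hg => hleft g fun f => ?_⟩
  rw [← dotForm_isSymm.eq]
  exact hg f

/-- The operator `f ↦ f ∘ π - f`. -/
noncomputable def permSub (F : Type u) [Field F] (π : Equiv.Perm X) : (X → F) →ₗ[F] (X → F) :=
  LinearMap.funLeft F F π - LinearMap.id

omit [Fintype X] in
theorem permSub_apply (π : Equiv.Perm X) (f : X → F) (x : X) :
    permSub F π f x = f (π x) - f x := rfl

omit [Fintype X] in
theorem mem_ker_permSub (π : Equiv.Perm X) (f : X → F) :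
    f ∈ LinearMap.ker (permSub F π) ↔ ∀ x, f (π x) = f x := by
  rw [LinearMap.mem_ker]
  constructor
  · intro h x
    have := congrFun h x
    rw [permSub_apply] at this
    exact sub_eq_zero.mp this
  · intro h
    funext x
    rw [permSub_apply, h x, sub_self]
    rfl

omit [Fintype X] in
theorem mem_range_permSub (π : Equiv.Perm X) (s : X → F) :
    s ∈ LinearMap.range (permSub F π) ↔ ∃ a : X → F, ∀ x, s x = a (π x) - a x := by
  rw [LinearMap.mem_range]
  constructor
  · rintro ⟨a, rfl⟩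
    exact ⟨a, fun x => rfl⟩
  · rintro ⟨a, ha⟩
    exact ⟨a, funext fun x => (ha x).symm⟩

/-- The orthogonal complement of the `π`-invariant functions is the image of `π - 1`. -/
theorem orthogonal_ker_permSub (π : Equiv.Perm X) :
    (dotForm X F).orthogonal (LinearMap.ker (permSub F π)) = LinearMap.range (permSub F π) := by
  symm
  apply Submodule.eq_of_le_of_finrank_le
  · intro s hs
    obtain ⟨a, ha⟩ := (mem_range_permSub π s).mp hs
    rw [LinearMap.BilinForm.mem_orthogonal_iff]
    intro n hn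
    rw [mem_ker_permSub] at hn
    rw [dotForm_apply]
    have h1 : ∀ x, n x * s x = n (π x) * a (π x) - n x * a x := by
      intro x
      rw [ha x, hn x]
      ring
    simp only [h1]
    rw [Finset.sum_sub_distrib, Equiv.sum_comp π (fun x => n x * a x), sub_self]
  · rw [LinearMap.BilinForm.finrank_orthogonal dotForm_nondegenerate]
    have := LinearMap.finrank_range_add_finrank_ker (permSub F π)
    omega

omit [Fintype X] in
theorem orthogonal_sup_eq (B : LinearMap.BilinForm F (X → F)) (U₁ U₂ : Submodule F (X → F)) :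
    B.orthogonal (U₁ ⊔ U₂) = B.orthogonal U₁ ⊓ B.orthogonal U₂ := by
  apply le_antisymm
  · exact le_inf (LinearMap.BilinForm.orthogonal_le le_sup_left)
      (LinearMap.BilinForm.orthogonal_le le_sup_right)
  · rintro m ⟨h1, h2⟩
    rw [SetLike.mem_coe, LinearMap.BilinForm.mem_orthogonal_iff] at h1 h2
    rw [LinearMap.BilinForm.mem_orthogonal_iff]
    intro n hn
    obtain ⟨n₁, hn₁, n₂, hn₂, rfl⟩ := Submodule.mem_sup.mp hn
    rw [map_add, LinearMap.add_apply, h1 n₁ hn₁, h2 n₂ hn₂, add_zero]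

end Perp

/-- (LA-1) `((σ-1)M ∩ (υ-1)M)^⊥ ⊆ M^σ + M^υ`. -/
theorem maninPerp : ManinPerpStatement.{u} := by
  intro X _ σ υ F _ m hm
  have h1 : m ∈ (dotForm X F).orthogonal
      (LinearMap.range (permSub F σ) ⊓ LinearMap.range (permSub F υ)) := by
    rw [LinearMap.BilinForm.mem_orthogonal_iff]
    rintro s ⟨hs1, hs2⟩
    obtain ⟨a, ha⟩ := (mem_range_permSub σ s).mp hs1
    obtain ⟨b, hb⟩ := (mem_range_permSub υ s).mp hs2
    rw [dotForm_isSymm.eq, dotForm_apply]
    exact hm s a b ha hb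
  rw [← orthogonal_ker_permSub, ← orthogonal_ker_permSub, ← orthogonal_sup_eq,
    LinearMap.BilinForm.orthogonal_orthogonal dotForm_nondegenerate dotForm_isSymm.isRefl] at h1
  obtain ⟨n₁, hn₁, n₂, hn₂, h⟩ := Submodule.mem_sup.mp h1
  exact ⟨n₁, n₂, (mem_ker_permSub σ n₁).mp hn₁, (mem_ker_permSub υ n₂).mp hn₂, h.symm⟩

/-! ## LA-4 -/

section Image

variable {G : Type*} [Group G]

/-- The image of `D(m, e) = (m|u - m) - (e|t - e)`. -/
def imD (u t : G) (X : Type*) [MulAction G X] : AddSubgroup (X → ℤ) where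
  carrier := {f | ∃ m e : X → ℤ, ∀ x, f x = (m (u • x) - m x) - (e (t • x) - e x)}
  zero_mem' := ⟨0, 0, fun x => by simp⟩
  add_mem' := by
    rintro f f' ⟨m, e, h⟩ ⟨m', e', h'⟩
    refine ⟨m + m', e + e', fun x => ?_⟩
    simp only [Pi.add_apply, h x, h' x]
    ring
  neg_mem' := by
    rintro f ⟨m, e, h⟩
    refine ⟨-m, -e, fun x => ?_⟩
    simp only [Pi.neg_apply, h x]
    ring

theorem mem_imD {X : Type*} [MulAction G X] {u t : G} {f : X → ℤ} :
    f ∈ imD u t X ↔ ∃ m e : X → ℤ, ∀ x, f x = (m (u • x) - m x) - (e (t • x) - e x) := Iff.rfl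

/-- The subgroup of all `g` such that `f|g - f` lies in the image of `D` for every `f`. -/
def stabD (u t : G) (X : Type*) [MulAction G X] : Subgroup G where
  carrier := {g | ∀ f : X → ℤ, (fun x => f (g • x) - f x) ∈ imD u t X}
  one_mem' := fun f => by
    convert zero_mem (imD u t X) using 1
    funext x
    simp
  mul_mem' := by
    intro g h hg hh f
    have h1 := hh (fun y => f (g • y))
    have h2 := hg f
    have := add_mem h1 h2
    convert this using 1
    funext x
    simp only [Pi.add_apply, mul_smul]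
    ring
  inv_mem' := by
    intro g hg f
    have h1 := neg_mem (hg (fun y => f (g⁻¹ • y)))
    convert h1 using 1
    funext x
    simp only [Pi.neg_apply, inv_smul_smul]
    ring

theorem mem_stabD {X : Type*} [MulAction G X] {u t g : G} :
    g ∈ stabD u t X ↔ ∀ f : X → ℤ, (fun x => f (g • x) - f x) ∈ imD u t X := Iff.rfl

theorem left_mem_stabD {X : Type*} [MulAction G X] (u t : G) : u ∈ stabD u t X := fun f =>
  ⟨f, 0, fun x => by simp⟩

theorem right_mem_stabD {X : Type*} [MulAction G X] (u t : G) : t ∈ stabD u t X := fun f =>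
  ⟨0, -f, fun x => by simp only [Pi.zero_apply, Pi.neg_apply]; ring⟩

/-- If `u, t` generate `G` and `G` acts transitively on the finite set `X`, then every function
with sum `0` is in the image of `D`. -/
theorem mem_imD_of_sum_eq_zero {X : Type*} [MulAction G X] [Fintype X]
    [MulAction.IsPretransitive G X] (u t : G)
    (hgen : stabD u t X = ⊤) (f : X → ℤ) (hf : ∑ x, f x = 0) : f ∈ imD u t X := by
  classical
  rcases isEmpty_or_nonempty X with hX | ⟨⟨x₀⟩⟩
  · have : f = 0 := funext fun x => (hX.false x).elim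
    rw [this]
    exact zero_mem _
  -- `δ_y - δ_{x₀}` is in the image
  have hδ : ∀ y : X, (fun x => (Pi.single y (1 : ℤ) : X → ℤ) x - (Pi.single x₀ (1 : ℤ) : X → ℤ) x)
      ∈ imD u t X := by
    intro y
    obtain ⟨g, hg⟩ := MulAction.exists_smul_eq G y x₀
    have hg' : g ∈ stabD u t X := by rw [hgen]; exact Subgroup.mem_top g
    have := hg' (Pi.single x₀ (1 : ℤ))
    convert this using 1
    funext x
    congr 1
    simp only [Pi.single_apply]
    have : g • x = x₀ ↔ x = y := by
      constructor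
      · intro h
        rw [← hg] at h
        exact smul_left_cancel g h
      · rintro rfl
        exact hg
    simp only [this]
  have hdecomp : f = ∑ y, f y • (fun x => (Pi.single y (1 : ℤ) : X → ℤ) x -
      (Pi.single x₀ (1 : ℤ) : X → ℤ) x) := by
    funext x
    simp only [Finset.sum_apply, Pi.smul_apply, smul_eq_mul, mul_sub, Finset.sum_sub_distrib,
      Pi.single_apply, mul_ite, mul_one, mul_zero, Finset.sum_ite_eq, Finset.mem_univ, if_true]
    by_cases hx : x = x₀
    · simp [hx, hf]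
    · simp [hx]
  rw [hdecomp]
  exact sum_mem fun y _ => zsmul_mem (hδ y) _

end Image

/-- `ST` and `T` generate `SL(2, ℤ)`. -/
theorem stabD_eq_top (X : Type*) [MulAction SL(2, ℤ) X] :
    stabD (S * T) T X = ⊤ := by
  rw [eq_top_iff, ← SpecialLinearGroup.SL2Z_generators, Subgroup.closure_le]
  rintro g (rfl | rfl)
  · have h1 : (S * T) ∈ stabD (S * T) T X := left_mem_stabD _ _
    have h2 : T ∈ stabD (S * T) T X := right_mem_stabD _ _
    have := mul_mem h1 (inv_mem h2)
    rwa [mul_inv_cancel_right] at this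
  · exact right_mem_stabD _ _

/-- (LA-4) lifting parabolic data from `ℤ/p` to `ℤ`. -/
theorem parDataLift : ParDataLiftStatement := by
  intro Γ _ p mbar ebar hpar
  classical
  let _ : Fintype (SL(2, ℤ) ⧸ Γ) := Fintype.ofFinite _
  -- arbitrary lifts
  let m₁ : SL(2, ℤ) ⧸ Γ → ℤ := fun x => (mbar x).cast
  let e₁ : SL(2, ℤ) ⧸ Γ → ℤ := fun x => (ebar x).cast
  have hm₁ : ∀ x, ((m₁ x : ℤ) : ZMod p) = mbar x := fun x => ZMod.intCast_zmod_cast _
  have he₁ : ∀ x, ((e₁ x : ℤ) : ZMod p) = ebar x := fun x => ZMod.intCast_zmod_cast _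
  let D₁ : SL(2, ℤ) ⧸ Γ → ℤ := fun x => (m₁ ((S * T) • x) - m₁ x) - (e₁ (T • x) - e₁ x)
  have hD₁ : ∀ x, (p : ℤ) ∣ D₁ x := by
    intro x
    rw [← ZMod.intCast_zmod_eq_zero_iff_dvd]
    simp only [D₁]
    push_cast
    rw [hm₁, hm₁, he₁, he₁, hpar x, sub_self]
  have hsum : ∑ x, D₁ x = 0 := by
    simp only [D₁]
    rw [Finset.sum_sub_distrib, Finset.sum_sub_distrib, Finset.sum_sub_distrib]
    have h1 : ∑ x : SL(2, ℤ) ⧸ Γ, m₁ ((S * T) • x) = ∑ x, m₁ x :=
      Equiv.sum_comp (MulAction.toPerm (S * T)) m₁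
    have h2 : ∑ x : SL(2, ℤ) ⧸ Γ, e₁ (T • x) = ∑ x, e₁ x :=
      Equiv.sum_comp (MulAction.toPerm T) e₁
    rw [h1, h2, sub_self, sub_self, sub_self]
  rcases eq_or_ne p 0 with hp | hp
  · -- `p = 0`: the lift is already parabolic data
    refine ⟨m₁, e₁, fun x => ?_, hm₁, he₁⟩
    have := hD₁ x
    rw [hp, Nat.cast_zero, zero_dvd_iff] at this
    simp only [D₁] at this
    linarith
  · choose f hf using hD₁
    have hp' : (p : ℤ) ≠ 0 := by exact_mod_cast hp
    have hfsum : ∑ x, f x = 0 := by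
      have : (p : ℤ) * ∑ x, f x = 0 := by
        rw [Finset.mul_sum, ← hsum]
        exact Finset.sum_congr rfl fun x _ => (hf x).symm
      exact (mul_eq_zero.mp this).resolve_left hp'
    obtain ⟨m₂, e₂, h₂⟩ := mem_imD.mp
      (mem_imD_of_sum_eq_zero (S * T) T (stabD_eq_top _) f hfsum)
    refine ⟨fun x => m₁ x - p * m₂ x, fun x => e₁ x - p * e₂ x, fun x => ?_, fun x => ?_,
      fun x => ?_⟩
    · have h3 : (m₁ ((S * T) • x) - m₁ x) - (e₁ (T • x) - e₁ x) = (p : ℤ) * f x := hf x
      have h4 := h₂ x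
      show (e₁ (T • x) - p * e₂ (T • x)) - (e₁ x - p * e₂ x) =
        (m₁ ((S * T) • x) - p * m₂ ((S * T) • x)) - (m₁ x - p * m₂ x)
      linear_combination -h3 - (p : ℤ) * h4
    · push_cast
      rw [hm₁]
      simp
    · push_cast
      rw [he₁]
      simp

end Fermat.Agent.S41.H281
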